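import Mathlib
import Fermat.Agent.Lib.EulerProd.PrimeSum

/-!
# Prime sums of a number field, indexed by rational primes

Re-indexing of the landed `Fermat.Agent.Lib.EulerProd.exists_primeSumOne_bound` (helper343):
`∑_p a_K(p) p^{-s} = log (1/(s-1)) + O(1)` as `s → 1⁺`, where `a_K(p)` is the number of ideals
(equivalently, of prime ideals) of `𝓞 K` of absolute norm `p`, the sum running over rational
primes.  All statements are given with the definitions unfolded, so that they can be used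
verbatim for any interface (`idealCount`, `primeCount`, `primeSum`, `BddNearOne`).
-/

set_option autoImplicit false

namespace Fermat.Agent.Lib.Frob.H643

open NumberField Ideal Filter Topology
open Fermat.Agent.Lib.EulerProd

variable (K : Type*) [Field K] [NumberField K]

/-- An ideal of prime absolute norm is a prime ideal. -/
theorem isPrime_of_absNorm_prime {I : Ideal (𝓞 K)} (h : (absNorm I).Prime) : I.IsPrime :=
  Ideal.isPrime_of_irreducible_absNorm h.prime.irreducible

theorem ne_bot_of_absNorm_prime {I : Ideal (𝓞 K)} (h : (absNorm I).Prime) : I ≠ ⊥ := by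
  rintro rfl
  rw [Ideal.absNorm_bot] at h
  exact Nat.not_prime_zero h

/-- An ideal of prime absolute norm is a prime element of the monoid of ideals. -/
theorem prime_of_absNorm_prime {I : Ideal (𝓞 K)} (h : (absNorm I).Prime) : Prime I :=
  Ideal.prime_of_isPrime (ne_bot_of_absNorm_prime K h) (isPrime_of_absNorm_prime K h)

/-- The degree-one primes, fibred over the rational primes by the absolute norm. -/
noncomputable def sigmaEquivDegOne :
    (Σ p : Nat.Primes, {I : Ideal (𝓞 K) // absNorm I = (p : ℕ)}) ≃ degOne K where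
  toFun x := ⟨⟨x.2.1, prime_of_absNorm_prime K (by rw [x.2.2]; exact x.1.2)⟩, by
    show (absNorm x.2.1).Prime
    rw [x.2.2]; exact x.1.2⟩
  invFun 𝔭 := ⟨⟨absNorm 𝔭.1.1, 𝔭.2⟩, ⟨𝔭.1.1, rfl⟩⟩
  left_inv := by
    rintro ⟨⟨p, hp⟩, I, hI⟩
    have hI' : absNorm I = p := hI
    subst hI'
    rfl
  right_inv := fun 𝔭 => rfl

theorem sigmaEquivDegOne_x (s : ℝ)
    (x : Σ p : Nat.Primes, {I : Ideal (𝓞 K) // absNorm I = (p : ℕ)}) :
    (sigmaEquivDegOne K x).1.x s = ((absNorm x.2.1 : ℕ) : ℝ) ^ (-s) := rfl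

/-- The prime sum over degree-one primes, re-indexed by rational primes. -/
theorem primeSumOne_eq_tsum_primes {s : ℝ} (hs : 1 < s) :
    primeSumOne K s = ∑' p : Nat.Primes,
      (Nat.card {I : Ideal (𝓞 K) // absNorm I = (p : ℕ)} : ℝ) * ((p : ℕ) : ℝ) ^ (-s) := by
  have hsum : Summable (fun x : Σ p : Nat.Primes, {I : Ideal (𝓞 K) // absNorm I = (p : ℕ)} =>
      ((absNorm x.2.1 : ℕ) : ℝ) ^ (-s)) := by
    have := (sigmaEquivDegOne K).summable_iff.mpr (summable_x_subtype K hs (degOne K))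
    exact this
  unfold primeSumOne
  rw [← (sigmaEquivDegOne K).tsum_eq]
  simp only [sigmaEquivDegOne_x]
  rw [hsum.tsum_sigma' (fun p => by
    have : Finite {I : Ideal (𝓞 K) // absNorm I = (p : ℕ)} := finite_setOfPred_absNorm_eq _
    exact Summable.of_finite)]
  exact tsum_congr fun p => tsum_fiber_absNorm_rpow K s p

/-- Summability of the prime sum. -/
theorem summable_card_mul_rpow_primes {s : ℝ} (hs : 1 < s) :
    Summable (fun p : Nat.Primes =>
      (Nat.card {I : Ideal (𝓞 K) // absNorm I = (p : ℕ)} : ℝ) * ((p : ℕ) : ℝ) ^ (-s)) :=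
  (summable_card_mul_rpow K hs).comp_injective Nat.Primes.coe_nat_injective

/-- **(A)** on `(1, 2]`: `∑_p a_K(p) p^{-s} = log (1/(s-1)) + O(1)`. -/
theorem exists_primeSum_card_bound :
    ∃ C : ℝ, ∀ s : ℝ, 1 < s → s ≤ 2 →
      |(∑' p : Nat.Primes,
          (Nat.card {I : Ideal (𝓞 K) // absNorm I = (p : ℕ)} : ℝ) * ((p : ℕ) : ℝ) ^ (-s))
        - Real.log (1 / (s - 1))| ≤ C := by
  obtain ⟨C, hC⟩ := exists_primeSumOne_bound K
  exact ⟨C, fun s hs1 hs2 => by rw [← primeSumOne_eq_tsum_primes K hs1]; exact hC s hs1 hs2⟩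

/-- **(A)** as a statement near `1⁺`. -/
theorem primeSum_card_sub_log :
    ∃ C : ℝ, ∀ᶠ s in 𝓝[>] (1 : ℝ),
      |(∑' p : Nat.Primes,
          (Nat.card {I : Ideal (𝓞 K) // absNorm I = (p : ℕ)} : ℝ) * ((p : ℕ) : ℝ) ^ (-s))
        - Real.log (1 / (s - 1))| ≤ C := by
  obtain ⟨C, hC⟩ := exists_primeSum_card_bound K
  refine ⟨C, ?_⟩
  filter_upwards [Ioc_mem_nhdsGT (show (1 : ℝ) < 2 by norm_num)] with s hs
  exact hC s hs.1 hs.2

/-- **A2'**: at most `[K : ℚ]` ideals of `𝓞 K` have absolute norm a given prime `p`. -/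
theorem card_absNorm_eq_prime_le {p : ℕ} (hp : p.Prime) :
    Nat.card {I : Ideal (𝓞 K) // absNorm I = p} ≤ Module.finrank ℚ K := by
  classical
  have : Finite {I : Ideal (𝓞 K) // absNorm I = p} := finite_setOfPred_absNorm_eq p
  let _ : Fintype {I : Ideal (𝓞 K) // absNorm I = p} := Fintype.ofFinite _
  let g : {I : Ideal (𝓞 K) // absNorm I = p} → PrimeIdeal K := fun I =>
    ⟨I.1, prime_of_absNorm_prime K (by rw [I.2]; exact hp)⟩
  have hg : Function.Injective g := fun a b h =>
    Subtype.ext (congrArg (fun x : PrimeIdeal K => x.1) h)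
  have h := card_le_finrank_of_mem (K := K) hp (Finset.univ.image g) (fun 𝔭 h𝔭 => by
    obtain ⟨I, -, rfl⟩ := Finset.mem_image.mp h𝔭
    have := Ideal.absNorm_mem I.1
    rw [I.2] at this
    exact this)
  rwa [Finset.card_image_of_injective _ hg, Finset.card_univ, ← Nat.card_eq_fintype_card] at h

end Fermat.Agent.Lib.Frob.H643
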